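/-
Program A (S42 / S29), AJ-core skeleton leaf 9 (`LeafPINV`, helper96's `S42/H96/Skeleton.lean`):
the algebraic property `PC N p` ("`p` divides the order at every place of `M_ℂ` over a finite
value of `j`") is invariant under the coefficientwise action of `Aut(ℂ)` on `M_ℂ`.

Proof: `sigM N σ` is the semilinear automorphism `A := arithmeticGalois _ σ`; for a place `v`,
`v.ord (A • g) = (A⁻¹ • v).ord g` (Prelude `SemilinearAut.ord_smul`), and `j ∈ A⁻¹ • v` iff
`A • j ∈ v` iff `j ∈ v`, since `j` has rational `q`-expansion coefficients.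
-/
import Mathlib
import Fermat.Agent.S42.H96.Skeleton

set_option autoImplicit false

open UpperHalfPlane CongruenceSubgroup ModularCurve ModularCurve.Period AlgebraicCurve
open Fermat.Agent.S24 Fermat.Agent.S42.H96
open scoped MatrixGroups Manifold Pointwise

noncomputable section

namespace Fermat.Agent.S42.H39

/-- `Aut(ℂ)` fixes the generators `j_d` of `M_ℂ` (their `q`-expansions are rational). -/
theorem sigM_jC (N : ℕ) (σ : ℂ ≃ₐ[ℚ] ℂ) (d : N.divisors) : sigM N σ (jC N d) = jC N d := by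
  apply Subtype.ext
  show coeffMap (σ : ℂ →+* ℂ) (coeffEmb ℂ (qExpand ℚ (d : ℕ) jq)) = coeffEmb ℂ _
  exact coeffMap_coeffEmb σ _

/-- The order of `sigM N σ g` at a place `v` is the order of `g` at the pulled-back place. -/
theorem ord_sigM (N : ℕ) (σ : ℂ ≃ₐ[ℚ] ℂ) (g : MC N) (v : Place ℂ (MC N)) :
    v.ord (sigM N σ g)
      = ((arithmeticGalois (modularFunctionFieldFull N) σ)⁻¹ • v).ord g := by
  have h := SemilinearAut.ord_smul (arithmeticGalois (modularFunctionFieldFull N) σ)⁻¹ v
    (arithmeticGalois (modularFunctionFieldFull N) σ • g)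
  rw [inv_smul_smul] at h
  exact h.symm

/-- Membership of `x` in the pulled-back place. -/
theorem mem_inv_smul_place (N : ℕ) (σ : ℂ ≃ₐ[ℚ] ℂ) (x : MC N) (v : Place ℂ (MC N)) :
    x ∈ ((arithmeticGalois (modularFunctionFieldFull N) σ)⁻¹ • v).toValuationSubring ↔
      sigM N σ x ∈ v.toValuationSubring := by
  rw [SemilinearAut.smul_toValuationSubring,
    ValuationSubring.mem_pointwise_smul_iff_inv_smul_mem, inv_inv]
  rfl

/-- **Leaf 9 of the AJ-core skeleton**: `P` is invariant under `Aut(ℂ)`. -/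
theorem leafPINV (N p : ℕ) [NeZero N] : LeafPINV N p := by
  intro σ g hg v hv
  rw [ord_sigM]
  apply hg
  rw [mem_inv_smul_place, sigM_jC]
  exact hv

/-- The converse direction (for `σ⁻¹`), as an `iff`. -/
theorem pc_sigM_iff (N p : ℕ) [NeZero N] (σ : ℂ ≃ₐ[ℚ] ℂ) (g : MC N) :
    PC N p (sigM N σ g) ↔ PC N p g := by
  refine ⟨fun h => ?_, leafPINV N p σ g⟩
  have h2 := leafPINV N p σ⁻¹ _ h
  have h3 : sigM N σ⁻¹ (sigM N σ g) = g := by
    show arithmeticGalois (modularFunctionFieldFull N) σ⁻¹ •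
      (arithmeticGalois (modularFunctionFieldFull N) σ • g) = g
    rw [map_inv, inv_smul_smul]
  rwa [h3] at h2

end Fermat.Agent.S42.H39
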